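import Fermat.Agent.H29EC.CoInv

/-!
# (C) : the inequality for subgroups of order prime to `p`
-/

set_option autoImplicit false
set_option maxHeartbeats 400000
set_option linter.style.haveILetI false
set_option linter.unusedSectionVars false
set_option linter.unusedSectionVars false

noncomputable section

namespace Fermat.Agent.H29EC

open Fermat.Agent.CC Fermat.Agent.CFT.EC

section

variable {p : ℕ} [Fact p.Prime] {G : Type} [Group G] {T : Type} [AddCommGroup T]
  [DistribMulAction G T] {𝒢 : GLD p G T} {H H₀ : Subgroup G} [H.Normal] [Finite (G ⧸ H)]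
  [Finite (G ⧸ H₀)] (D : ECData p 𝒢 H H₀) (C : Subgroup (G ⧸ H))
  {M M' : Type} [AddCommGroup M] [AddCommGroup M'] [DistribMulAction G M] [DistribMulAction G M']
  {e : M →+ M' →+ T} (h : Pr p 𝒢.𝓛 e) (htM : ∀ (h : H) (m : M), h • m = m)

/-- restriction to `H`, paired with `m'` -/
def zC (htT : ∀ (h : H) (t : T), h • t = t) (htM : ∀ (h : H) (m : M), h • m = m)
    (e : M →+ M' →+ T) :
    Z1 (𝒢.𝓛.sub (GC C)) M →+ M' →+ Z1 (𝒢.𝓛.sub H) T where
  toFun f :=
    { toFun := fun m' => ⟨fun x => e (f.1 (Subgroup.inclusion (le_GC C) x)) m', by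
        have h1 := f.2.1.precomp (𝒢.𝓛.cont_inclusion (le_GC C))
        exact h1.comp (fun m => e m m'), by
        intro x y
        beta_reduce
        rw [map_mul, f.2.2, map_add, AddMonoidHom.add_apply, htT]
        congr 3
        exact htM x _⟩
      map_zero' := by
        apply Subtype.ext
        funext x
        exact map_zero _
      map_add' := fun a b => by
        apply Subtype.ext
        funext x
        exact map_add _ _ _ }
  map_zero' := by
    apply AddMonoidHom.ext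
    intro m
    apply Subtype.ext
    funext x
    change e 0 m = 0
    rw [map_zero, AddMonoidHom.zero_apply]
  map_add' f f' := by
    apply AddMonoidHom.ext
    intro m
    apply Subtype.ext
    funext x
    change e (f.1 _ + f'.1 _) m = e (f.1 _) m + e (f'.1 _) m
    rw [map_add, AddMonoidHom.add_apply]

theorem zC_apply (htT : ∀ (h : H) (t : T), h • t = t) (f : Z1 (𝒢.𝓛.sub (GC C)) M) (m' : M')
    (x : H) : (zC C htT htM e f m').1 x = e (f.1 (Subgroup.inclusion (le_GC C) x)) m' := rfl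

include htM in
/-- `f (g⁻¹ x g) = g⁻¹ f(x)` -/
theorem conj_f (f : Z1 (𝒢.𝓛.sub (GC C)) M) (g : GC C) (x x' : H) (hx : (x' : G) = g⁻¹ * x * g) :
    f.1 (Subgroup.inclusion (le_GC C) x) = g • f.1 (Subgroup.inclusion (le_GC C) x') := by
  have h1 : Subgroup.inclusion (le_GC C) x = g * (Subgroup.inclusion (le_GC C) x') * g⁻¹ := by
    apply Subtype.ext
    change (x : G) = g * x' * (g : G)⁻¹
    rw [hx, InvMemClass.coe_inv]
    group
  have h2 : (g * (Subgroup.inclusion (le_GC C) x')) • f.1 g⁻¹ = g • f.1 g⁻¹ := by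
    rw [mul_smul]
    congr 1
    exact htM x' _
  have h3 : f.1 g + g • f.1 g⁻¹ = 0 := by
    rw [← f.2.2, mul_inv_cancel, Z1.map_one]
  rw [h1, f.2.2, f.2.2, h2]
  calc _ = g • f.1 (Subgroup.inclusion (le_GC C) x') + (f.1 g + g • f.1 g⁻¹) := by abel
    _ = _ := by rw [h3, add_zero]

include h htM in
/-- a cocycle trivial on `H` is a coboundary (order of `C` prime to `p`) -/
theorem cob_of_trivial [Finite C] (hC : (Nat.card C).Coprime p) (f : Z1 (𝒢.𝓛.sub (GC C)) M)
    (hf : ∀ x : H, f.1 (Subgroup.inclusion (le_GC C) x) = 0) : H1.mk (𝒢.𝓛.sub (GC C)) M f = 0 := by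
  classical
  haveI := Fintype.ofFinite C
  -- `f` factors through `C`
  let π : GC C → C := fun g => ⟨((g : G) : G ⧸ H), g.2⟩
  have hπ : Function.Surjective π := by
    rintro ⟨c, hc⟩
    obtain ⟨g, rfl⟩ := QuotientGroup.mk_surjective c
    exact ⟨⟨g, hc⟩, rfl⟩
  have hfac : ∀ g g', π g = π g' → f.1 g = f.1 g' := by
    intro g g' hg
    have h1 : (g : G)⁻¹ * g' ∈ H := QuotientGroup.eq.mp (congrArg Subtype.val hg)
    have h2 : g' = g * Subgroup.inclusion (le_GC C) ⟨_, h1⟩ := by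
      apply Subtype.ext
      change (g' : G) = g * ((g : G)⁻¹ * g')
      group
    rw [h2, f.2.2, hf, smul_zero, add_zero]
  let s : C → GC C := Function.surjInv hπ
  have hs : ∀ g, f.1 (s (π g)) = f.1 g := fun g => hfac _ _ (Function.surjInv_eq hπ _)
  obtain ⟨k, hk⟩ := exists_inv hC
  -- the sum of all values
  set Sf : M := ∑ c : C, f.1 (s c) with hSf
  have key : ∀ g : GC C, Sf = (Nat.card C) • f.1 g + g • Sf := by
    intro g
    have h1 : Sf = ∑ c : C, f.1 (s (π g * c)) :=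
      (Fintype.sum_equiv (Equiv.mulLeft (π g)) _ _ fun c => rfl).symm
    have h2 : ∀ c, f.1 (s (π g * c)) = f.1 g + g • f.1 (s c) := by
      intro c
      have h3 : π g * c = π (g * s c) := by
        apply Subtype.ext
        change ((g : G) : G ⧸ H) * (c : G ⧸ H) = ((g * s c : G) : G ⧸ H)
        rw [QuotientGroup.mk_mul]
        congr 1
        exact (congrArg Subtype.val (Function.surjInv_eq hπ c)).symm
      rw [← f.2.2, ← hs (g * s c), h3]
    calc Sf = ∑ c : C, f.1 (s (π g * c)) := h1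
      _ = ∑ c : C, (f.1 g + g • f.1 (s c)) := Finset.sum_congr rfl fun c _ => h2 c
      _ = (Nat.card C) • f.1 g + g • Sf := by
        rw [Finset.sum_add_distrib, Finset.sum_const, Finset.card_univ, ← Nat.card_eq_fintype_card,
          ← Finset.smul_sum, ← hSf]
  refine H1.mk_eq_zero.mpr ⟨-(k • Sf), fun g => ?_⟩
  have h1 : (Nat.card C) • f.1 g = Sf - g • Sf := by
    rw [eq_sub_iff_add_eq]
    exact (key g).symm
  have h2 := hk h.kA (f.1 g)
  rw [mul_smul, h1] at h2
  rw [← h2, smul_neg, smul_sub, smul_comm g k Sf]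
  abel

include h in
/-- **(C1)** -/
theorem card_H1_le (hC : (Nat.card C).Coprime p) [DistribMulAction (G ⧸ H) M']
    (hM' : ∀ (g : G) (m : M'), (g : G ⧸ H) • m = g • m) (htM : ∀ (h : H) (m : M), h • m = m) :
    Nat.card (H1 (𝒢.𝓛.sub (GC C)) M) ≤ Nat.card (HomC C M' D.Y) := by
  have fM' := h.fB
  have fY := D.fY
  have htT := D.I.htT
  let Φ : Z1 (𝒢.𝓛.sub (GC C)) M →+ HomC C M' D.Y :=
    { toFun := fun f => ⟨D.ι.comp (zC C htT htM e f), by
        intro c hc m'
        obtain ⟨g, rfl⟩ := QuotientGroup.mk_surjective c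
        rw [hM']
        change D.ι _ = _ • D.ι _
        refine D.equi g (zC C htT htM e f m') (zC C htT htM e f (g • m')) ?_
        intro x x' hx
        rw [zC_apply, zC_apply, conj_f C htM f ⟨g, hc⟩ x x' hx]
        exact h.he g _ _⟩
      map_zero' := Subtype.ext (AddMonoidHom.ext fun m' => by
        change D.ι (zC C htT htM e 0 m') = 0
        rw [map_zero, AddMonoidHom.zero_apply, map_zero])
      map_add' := fun f f' => Subtype.ext (AddMonoidHom.ext fun m' => by
        change D.ι (zC C htT htM e (f + f') m') = D.ι (zC C htT htM e f m') + D.ι (zC C htT htM e f' m')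
        rw [map_add, AddMonoidHom.add_apply, map_add]) }
  have hΦ : ∀ f m', (Φ f).1 m' = D.ι (zC C htT htM e f m') := fun f m' => rfl
  have hB : ∀ f ∈ B1 (𝒢.𝓛.sub (GC C)) M, Φ f = 0 := by
    rintro f ⟨a, ha⟩
    refine Subtype.ext (AddMonoidHom.ext fun m' => ?_)
    rw [hΦ]
    have h0 : zC C htT htM e f m' = 0 := by
      apply Subtype.ext
      funext x
      rw [zC_apply, ha]
      have h1 : Subgroup.inclusion (le_GC C) x • a = a := htM x a
      rw [h1, sub_self, map_zero]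
      rfl
    rw [h0, map_zero]
    rfl
  let Ψ : H1 (𝒢.𝓛.sub (GC C)) M →+ HomC C M' D.Y := QuotientAddGroup.lift _ Φ hB
  refine Nat.card_le_card_of_injective Ψ ?_
  rw [injective_iff_map_eq_zero]
  intro x hx
  obtain ⟨f, rfl⟩ := H1.mk_surjective x
  have h0 : Φ f = 0 := hx
  refine cob_of_trivial C h htM hC f fun x => h.hl _ fun m' => ?_
  have h1 : D.ι (zC C htT htM e f m') = 0 := by
    rw [← hΦ, h0]
    rfl
  have h2 := D.inj (h1.trans (map_zero D.ι).symm)
  exact congrArg (fun z : Z1 (𝒢.𝓛.sub H) T => z.1 x) h2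

include h in
/-- the unit equation, multiplicatively -/
theorem card_unit (hC : (Nat.card C).Coprime p) [DistribMulAction (G ⧸ H) M']
    (hM' : ∀ (g : G) (m : M'), (g : G ⧸ H) • m = g • m) (htM : ∀ (h : H) (m : M), h • m = m)
    (htM' : ∀ (h : H) (m : M'), h • m = m) :
    Nat.card (HomC C M' D.Y) * Nat.card (H0 G (CoInd (GC C) M')) =
      Nat.card (H0 G (CoInd (GC C) M)) * 𝒢.c0 (CoInd (GC C) M') *
        cfix D.c (CoInd (GC C) M') := by
  have fM := h.fA
  have fM' := h.fB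
  have fY := D.fY
  letI := quotAct (H := H) (M := T) D.I.htT
  letI := quotAct (H := H) (M := M) htM
  haveI : Finite (Pm (Σ v : 𝒢.V, (G ⧸ H) ⧸ ((𝒢.D v).map (QuotientGroup.mk' H))) (ZMod p)) :=
    inferInstanceAs (Finite ((Σ v : 𝒢.V, (G ⧸ H) ⧸ ((𝒢.D v).map (QuotientGroup.mk' H))) → ZMod p))
  haveI : Finite (Pm ((G ⧸ H) ⧸ (Subgroup.zpowers (QuotientGroup.mk' H D.c))) (ZMod p)) :=
    inferInstanceAs (Finite (((G ⧸ H) ⧸ (Subgroup.zpowers (QuotientGroup.mk' H D.c))) → ZMod p))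
  haveI : Finite (Tv (ZMod p)) := inferInstanceAs (Finite (ZMod p))
  haveI : Finite T := Finite.of_equiv _ 𝒢.τ.symm.toEquiv
  have hu := D.unit (fun g t => rfl) (homF p C hC M')
  simp only [homF_d] at hu
  have e1 : Nat.card (HomC C M' (Tv (ZMod p))) = Nat.card (H0 G (CoInd (GC C) M')) := by
    rw [card_HomC_Tv hC h.kB, card_H0_coInd C hM']
  have e2 : Nat.card (HomC C M' T) = Nat.card (H0 G (CoInd (GC C) M)) := by
    rw [card_HomC_T 𝒢.τ h.kA h.kB e ?_ h.hl h.hr, card_H0_coInd C (fun g m => rfl)]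
    intro g m n
    obtain ⟨g, rfl⟩ := QuotientGroup.mk_surjective g
    rw [hM']
    exact h.he g m n
  have e3 : Nat.card (HomC C M' (Pm (Σ v : 𝒢.V, (G ⧸ H) ⧸ ((𝒢.D v).map (QuotientGroup.mk' H)))
      (ZMod p))) = 𝒢.c0 (CoInd (GC C) M') := by
    rw [card_HomC_Pm hC h.kB, card_MapC_sigma, GLD.c0, Nat.card_pi, Nat.card_pi]
    refine Finset.prod_congr rfl fun v _ => ?_
    rw [card_inv_coInd C hM' htM']
    refine Nat.card_congr (Equiv.subtypeEquivRight fun f => ?_)
    exact ⟨fun hf g => hf g g.2, fun hf d hd => hf ⟨d, hd⟩⟩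
  have e4 : Nat.card (HomC C M' (Pm ((G ⧸ H) ⧸ (Subgroup.zpowers (QuotientGroup.mk' H D.c)))
      (ZMod p))) = cfix D.c (CoInd (GC C) M') := by
    rw [card_HomC_Pm hC h.kB, card_cfix_coInd C hM' htM']
  have kH : ∀ (Y : Type) [AddCommGroup Y] [DistribMulAction (G ⧸ H) Y] [Finite Y],
      Nat.card (HomC C M' Y) = p ^ padicValNat p (Nat.card (HomC C M' Y)) := by
    intro Y _ _ _
    refine card_eq_pow fun φ => Subtype.ext (AddMonoidHom.ext fun n => ?_)
    change (p • φ.1) n = 0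
    rw [AddMonoidHom.nsmul_apply, ← map_nsmul, h.kB, map_zero]
  rw [← e1, ← e2, ← e3, ← e4, kH D.Y, kH (Tv (ZMod p)), kH T, kH (Pm (Σ v : 𝒢.V, (G ⧸ H) ⧸
    ((𝒢.D v).map (QuotientGroup.mk' H))) (ZMod p)), kH (Pm ((G ⧸ H) ⧸ (Subgroup.zpowers
    (QuotientGroup.mk' H D.c))) (ZMod p)), ← pow_add, ← pow_add, ← pow_add]
  congr 1
  exact_mod_cast hu

/-- **(C)** -/
theorem leC : D.LeC := by
  intro C hC M M' _ _ _ _ e h htM htM'
  letI := quotAct (H := H) (M := M') htM'
  have fM := h.fA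
  have fM' := h.fB
  have hGC : 𝒢.𝓛.isOpen (GC C) := 𝒢.𝓛.mono _ _ D.I.hH (le_GC C)
  haveI : (GC C).FiniteIndex := 𝒢.𝓛.fin _ hGC
  have hN := 𝒢.prM hGC h
  have fN := hN.fA
  have fN' := hN.fB
  have tN := coInd_trivial C htM
  have tN' := coInd_trivial C htM'
  have hu := card_unit D C h hC (fun g m => rfl) htM htM'
  have h1 := card_H1_le D C h hC (fun g m => rfl) htM
  have h2 : Nat.card (H1 𝒢.𝓛 (CoInd (GC C) M)) = Nat.card (H1 (𝒢.𝓛.sub (GC C)) M) :=
    Nat.card_congr (Equiv.ofBijective _ ⟨sh1_injective, sh1_surjective hGC⟩)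
  have h3 := 𝒢.card_E2 hN (D.I.E2_all hN tN tN')
  have h4 := card_cfix D.odd hN 𝒢.τ D.c D.cc D.cT
  have h5 := 𝒢.c0_eq hN.flip
  have h6 := D.I.finite_H2 hN tN
  have h7 : 0 < Nat.card (𝒢.Sh2 (CoInd (GC C) M)) := Nat.card_pos
  have h8 : 0 < Nat.card (H0 G (CoInd (GC C) M')) := Nat.card_pos
  change Nat.card (H1 𝒢.𝓛 (CoInd (GC C) M)) * cfix D.c (CoInd (GC C) M) ≤
    Nat.card (H0 G (CoInd (GC C) M)) * Nat.card (H2 𝒢.𝓛 (CoInd (GC C) M)) *
      Nat.card (CoInd (GC C) M)
  refine Nat.le_of_mul_le_mul_right ?_ h8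
  calc Nat.card (H1 𝒢.𝓛 (CoInd (GC C) M)) * cfix D.c (CoInd (GC C) M) *
        Nat.card (H0 G (CoInd (GC C) M'))
      ≤ Nat.card (HomC C M' D.Y) * cfix D.c (CoInd (GC C) M) *
        Nat.card (H0 G (CoInd (GC C) M')) := by
        rw [h2]
        gcongr
    _ = (Nat.card (HomC C M' D.Y) * Nat.card (H0 G (CoInd (GC C) M'))) *
        cfix D.c (CoInd (GC C) M) := by ring
    _ = Nat.card (H0 G (CoInd (GC C) M)) * 𝒢.c2 (CoInd (GC C) M) * Nat.card (CoInd (GC C) M) := by
        rw [hu, ← h4, h5]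
        ring
    _ ≤ Nat.card (H0 G (CoInd (GC C) M)) * (Nat.card (𝒢.Sh2 (CoInd (GC C) M)) *
        𝒢.c2 (CoInd (GC C) M)) * Nat.card (CoInd (GC C) M) := by
        gcongr
        exact Nat.le_mul_of_pos_left _ h7
    _ = _ := by
        rw [← h3]
        ring

end

end Fermat.Agent.H29EC

#print axioms Fermat.Agent.H29EC.leC
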