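import Fermat.Agent.H29EC.MapC

/-!
# Invariants of coinduced modules
-/

set_option autoImplicit false
set_option maxHeartbeats 400000
set_option linter.style.haveILetI false

noncomputable section

namespace Fermat.Agent.H29EC

open Fermat.Agent.CC Fermat.Agent.CFT.EC

section

variable {G : Type} [Group G] {H : Subgroup G} [H.Normal] {M : Type} [AddCommGroup M]
  [DistribMulAction G M]

/-- the action of `G ⧸ H` on a module with trivial `H`-action -/
@[reducible] def quotAct (ht : ∀ (h : H) (m : M), h • m = m) : DistribMulAction (G ⧸ H) M :=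
  DistribMulAction.compHom M (QuotientGroup.lift H (DistribMulAction.toAddMonoidEnd G M) (by
    intro h hh
    ext m
    exact ht ⟨h, hh⟩ m))

theorem quotAct_smul (ht : ∀ (h : H) (m : M), h • m = m) (g : G) (m : M) :
    letI := quotAct ht
    (g : G ⧸ H) • m = g • m := rfl

variable (C : Subgroup (G ⧸ H))

/-- the preimage of `C` -/
abbrev GC : Subgroup G := C.comap (QuotientGroup.mk' H)

theorem le_GC : H ≤ GC C := by
  intro h hh
  change (h : G ⧸ H) ∈ C
  rw [(QuotientGroup.eq_one_iff h).mpr hh]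
  exact C.one_mem

theorem smul_of_trivial (ht : ∀ (h : H) (m : M), h • m = m) (h : GC C) (hh : (h : G) ∈ H) (m : M) :
    h • m = m := ht ⟨h, hh⟩ m

theorem coInd_H (ht : ∀ (h : H) (m : M), h • m = m) (f : CoInd (GC C) M) (x h : G) (hh : h ∈ H) :
    f.1 (x * h) = f.1 x := by
  have hn : H.Normal := inferInstance
  have h2 : x * h * x⁻¹ ∈ H := hn.conj_mem h hh x
  have h3 := f.2 ⟨x * h * x⁻¹, le_GC C h2⟩ x
  rw [smul_of_trivial C ht _ h2] at h3
  rw [← h3]
  simp

theorem coInd_trivial (ht : ∀ (h : H) (m : M), h • m = m) (h : H) (f : CoInd (GC C) M) :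
    h • f = f := by
  refine CoInd.ext fun x => ?_
  exact coInd_H C ht f x h h.2

variable [DistribMulAction (G ⧸ H) M]

/-- invariants of coinduced modules as equivariant functions -/
theorem card_inv_coInd (hM : ∀ (g : G) (m : M), (g : G ⧸ H) • m = g • m)
    (ht : ∀ (h : H) (m : M), h • m = m) (D : Subgroup G) :
    Nat.card (MapC C M ((G ⧸ H) ⧸ (D.map (QuotientGroup.mk' H)))) =
      Nat.card {f : CoInd (GC C) M // ∀ d ∈ D, d • f = f} := by
  let π : G → (G ⧸ H) ⧸ (D.map (QuotientGroup.mk' H)) := fun x => QuotientGroup.mk (x : G ⧸ H)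
  have hπ : Function.Surjective π := by
    intro q
    obtain ⟨y, rfl⟩ := QuotientGroup.mk_surjective q
    obtain ⟨x, rfl⟩ := QuotientGroup.mk_surjective y
    exact ⟨x, rfl⟩
  refine Nat.card_congr (Equiv.ofBijective (fun F => ⟨⟨fun x => F.1 (π x), ?_⟩, ?_⟩) ⟨?_, ?_⟩)
  · intro u x
    have h1 : π (u * x) = ((u : G) : G ⧸ H) • π x := rfl
    beta_reduce
    rw [h1, F.2 ((u : G) : G ⧸ H) u.2, hM]
    rfl
  · intro d hd
    refine CoInd.ext fun x => ?_
    change F.1 (π (x * d)) = F.1 (π x)
    refine congrArg F.1 (QuotientGroup.eq.mpr ?_).symm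
    refine ⟨d, hd, ?_⟩
    change (d : G ⧸ H) = (x : G ⧸ H)⁻¹ * ((x * d : G) : G ⧸ H)
    rw [QuotientGroup.mk_mul, inv_mul_cancel_left]
  · intro F F' h
    refine Subtype.ext (funext fun q => ?_)
    obtain ⟨x, rfl⟩ := hπ q
    exact congrArg (fun f => f.1.1 x) h
  · intro f
    have key : ∀ x y, π x = π y → f.1.1 x = f.1.1 y := by
      intro x y h
      obtain ⟨d, hd, hd'⟩ := QuotientGroup.eq.mp h
      change (d : G ⧸ H) = (x : G ⧸ H)⁻¹ * (y : G ⧸ H) at hd'
      rw [← QuotientGroup.mk_inv, ← QuotientGroup.mk_mul, QuotientGroup.eq] at hd'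
      have h1 : y = (x * d) * (d⁻¹ * (x⁻¹ * y)) := by group
      rw [h1, coInd_H C ht _ _ _ hd']
      have h2 := congrArg (fun f : CoInd (GC C) M => f.1 x) (f.2 d hd)
      exact h2.symm
    have hs : ∀ x, f.1.1 (Function.surjInv hπ (π x)) = f.1.1 x := fun x =>
      key _ _ (Function.surjInv_eq hπ _)
    refine ⟨⟨fun q => f.1.1 (Function.surjInv hπ q), ?_⟩, Subtype.ext (CoInd.ext hs)⟩
    intro c hc q
    obtain ⟨x, rfl⟩ := hπ q
    obtain ⟨g, rfl⟩ := QuotientGroup.mk_surjective c
    have h1 : (g : G ⧸ H) • π x = π (g * x) := rfl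
    beta_reduce
    rw [h1, hs, hs, hM]
    exact f.1.2 ⟨g, hc⟩ x

theorem card_H0_coInd (hM : ∀ (g : G) (m : M), (g : G ⧸ H) • m = g • m) :
    Nat.card (invC C M) = Nat.card (H0 G (CoInd (GC C) M)) := by
  refine Nat.card_congr (Equiv.ofBijective (fun m => ⟨⟨fun _ => m.1, ?_⟩, ?_⟩) ⟨?_, ?_⟩)
  · intro u x
    have := m.2 _ u.2
    change ((u : G) : G ⧸ H) • m.1 = m.1 at this
    rw [hM] at this
    exact this.symm
  · intro g
    exact CoInd.ext fun x => rfl
  · intro m m' h
    exact Subtype.ext (congrArg (fun f => f.1.1 1) h)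
  · intro f
    have hc : ∀ x, f.1.1 x = f.1.1 1 := by
      intro x
      have := congrArg (fun f : CoInd (GC C) M => f.1 1) (f.2 x)
      change f.1.1 (1 * x) = f.1.1 1 at this
      rwa [one_mul] at this
    refine ⟨⟨f.1.1 1, ?_⟩, Subtype.ext (CoInd.ext fun x => (hc x).symm)⟩
    intro c hcc
    obtain ⟨g, rfl⟩ := QuotientGroup.mk_surjective c
    rw [hM]
    have := f.1.2 ⟨g, hcc⟩ 1
    rw [hc] at this
    exact this.symm

theorem card_cfix_coInd (hM : ∀ (g : G) (m : M), (g : G ⧸ H) • m = g • m)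
    (ht : ∀ (h : H) (m : M), h • m = m) (c : G) :
    Nat.card (MapC C M ((G ⧸ H) ⧸ (Subgroup.zpowers (QuotientGroup.mk' H c)))) =
      cfix c (CoInd (GC C) M) := by
  have h1 := card_inv_coInd C hM ht (Subgroup.zpowers c)
  rw [MonoidHom.map_zpowers] at h1
  rw [h1]
  refine Nat.card_congr (Equiv.subtypeEquivRight fun f => ?_)
  constructor
  · intro h
    exact h c (Subgroup.mem_zpowers c)
  · intro h d hd
    obtain ⟨n, rfl⟩ := Subgroup.mem_zpowers_iff.mp hd
    have h2 : c ∈ MulAction.stabilizer G f := h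
    exact Subgroup.zpow_mem _ h2 n

omit [DistribMulAction G M] in
theorem card_MapC_sigma {V : Type} (X : V → Type) [∀ v, MulAction (G ⧸ H) (X v)] :
    Nat.card (MapC C M (Σ v, X v)) = Nat.card (∀ v, MapC C M (X v)) := by
  refine Nat.card_congr
    { toFun := fun f v => ⟨fun x => f.1 ⟨v, x⟩, fun c hc x => f.2 c hc ⟨v, x⟩⟩
      invFun := fun F => ⟨fun x => (F x.1).1 x.2, fun c hc x => (F x.1).2 c hc x.2⟩
      left_inv := fun f => rfl
      right_inv := fun F => rfl }

end

section Inv

variable {p : ℕ} [Fact p.Prime] {G : Type} [Group G] {T A B : Type} [AddCommGroup T]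
  [AddCommGroup A] [AddCommGroup B] [DistribMulAction G T] [DistribMulAction G A]
  [DistribMulAction G B]

/-- the fixed points of `c` -/
def fixS (c : G) (A : Type) [AddCommGroup A] [DistribMulAction G A] : AddSubgroup A where
  carrier := {a | c • a = a}
  add_mem' := by
    intro a b (ha : _ = _) (hb : _ = _)
    change c • (a + b) = a + b
    rw [smul_add, ha, hb]
  zero_mem' := smul_zero c
  neg_mem' := by
    intro a (ha : _ = _)
    change c • (-a) = -a
    rw [smul_neg, ha]

theorem card_cfix (hp2 : p ≠ 2) {𝓛 : Lev G} {e : A →+ B →+ T} (h : Pr p 𝓛 e) (τ : T ≃+ ZMod p)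
    (c : G) (hc : c * c = 1) (hT : ∀ t : T, c • t = -t) : cfix c A * cfix c B = Nat.card A := by
  have fA := h.fA
  have fB := h.fB
  let e' : A →+ B →+ ZMod p := e.compr₂ τ.toAddMonoidHom
  have he' : ∀ a b, e' a b = 0 ↔ e a b = 0 := by
    intro a b
    change τ (e a b) = 0 ↔ _
    exact map_eq_zero_iff τ τ.injective
  have h2 : ∀ t : T, t + t = 0 → t = 0 := by
    intro t ht
    apply τ.injective
    rw [map_zero]
    have h3 : (2 : ZMod p) * τ t = 0 := by rw [two_mul, ← map_add, ht, map_zero]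
    refine (mul_eq_zero.mp h3).resolve_left ?_
    intro h4
    have h5 : ((2 : ℕ) : ZMod p) = 0 := by exact_mod_cast h4
    rw [ZMod.natCast_eq_zero_iff] at h5
    exact hp2 ((Nat.prime_dvd_prime_iff_eq Fact.out Nat.prime_two).mp h5)
  have hperp : perp e' (fixS c B) = fixS c A := by
    ext a
    rw [mem_perp]
    constructor
    · intro ha
      refine sub_eq_zero.mp (h.hl _ fun b => ?_)
      have h3 : e (c • a) b = - e a (c • b) := by
        have h4 := h.he c a (c • b)
        rw [← mul_smul, hc, one_smul] at h4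
        rw [h4, hT]
      have h5 : c • (c • b + b) = c • b + b := by
        rw [smul_add, ← mul_smul, hc, one_smul, add_comm]
      have h6 := (he' a _).mp (ha _ h5)
      rw [map_add] at h6
      rw [map_sub, AddMonoidHom.sub_apply, h3, ← neg_add', h6, neg_zero]
    · intro ha b hb
      rw [he']
      apply h2
      have ha' : c • a = a := ha
      have hb' : c • b = b := hb
      have h4 := h.he c a b
      rw [ha', hb', hT] at h4
      nth_rw 1 [h4]
      exact neg_add_cancel _
  have h7 := card_perp h.kA h.kB e' (fun b hb => h.hr b fun a => (he' a b).mp (hb a)) (fixS c B)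
  rw [hperp] at h7
  exact h7

end Inv

end Fermat.Agent.H29EC

#print axioms Fermat.Agent.H29EC.card_inv_coInd
#print axioms Fermat.Agent.H29EC.card_H0_coInd
#print axioms Fermat.Agent.H29EC.card_cfix_coInd
#print axioms Fermat.Agent.H29EC.card_MapC_sigma
#print axioms Fermat.Agent.H29EC.card_cfix
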