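import Fermat.Agent.CFT.EC.Defs
import Fermat.Agent.CC.PT9

/-!
# The functor `Y ↦ Hom_C(N, Y)` for `|C|` prime to `p`
-/

set_option autoImplicit false
set_option maxHeartbeats 400000
set_option linter.style.haveILetI false

noncomputable section

namespace Fermat.Agent.H29EC

open Fermat.Agent.CC Fermat.Agent.CFT.EC

section Fp

variable {p : ℕ} [Fact p.Prime]

theorem exists_section_aux {p : ℕ} [Fact p.Prime] {B D : Type*} [AddCommGroup B] [AddCommGroup D] [Module (ZMod p) B]
    [Module (ZMod p) D] (j : B →+ D) (hj : Function.Surjective j) :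
    ∃ s : D →+ B, ∀ d, j (s d) = d := by
  obtain ⟨s, hs⟩ := (j.toZModLinearMap p).exists_rightInverse_of_surjective
    (LinearMap.range_eq_top.mpr hj)
  exact ⟨s.toAddMonoidHom, fun d => congrArg (fun f : D →ₗ[ZMod p] D => f d) hs⟩

/-- a surjection of modules killed by `p` has an additive section -/
theorem exists_section {B D : Type*} [AddCommGroup B] [AddCommGroup D] (kB : ∀ b : B, p • b = 0)
    (kD : ∀ d : D, p • d = 0) (j : B →+ D) (hj : Function.Surjective j) :
    ∃ s : D →+ B, ∀ d, j (s d) = d := by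
  letI : Module (ZMod p) B := AddCommGroup.zmodModule kB
  letI : Module (ZMod p) D := AddCommGroup.zmodModule kD
  exact exists_section_aux (p := p) j hj

theorem card_eq_pow_aux {X : Type*} [AddCommGroup X] [Module (ZMod p) X] [Finite X] :
    Nat.card X = p ^ padicValNat p (Nat.card X) := by
  haveI : Module.Finite (ZMod p) X := Module.Finite.of_finite
  have h := Module.natCard_eq_pow_finrank (K := ZMod p) (V := X)
  rw [Nat.card_zmod] at h
  rw [h, padicValNat.prime_pow]

/-- finite modules killed by `p` have `p`-power order -/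
theorem card_eq_pow {X : Type*} [AddCommGroup X] [Finite X] (kX : ∀ x : X, p • x = 0) :
    Nat.card X = p ^ padicValNat p (Nat.card X) := by
  letI : Module (ZMod p) X := AddCommGroup.zmodModule kX
  exact card_eq_pow_aux

theorem card_ker_mul_of_surj {X Y Z : Type*} [AddCommGroup X] [AddCommGroup Y] [AddCommGroup Z]
    (f : X →+ Y) (g : Y →+ Z) (hf : Function.Injective f) (h : ∀ y, g y = 0 ↔ ∃ x, f x = y)
    (hg : Function.Surjective g) : Nat.card Y = Nat.card X * Nat.card Z := by
  rw [card_exact f g h]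
  congr 1
  · exact (Nat.card_congr (AddMonoidHom.ofInjective hf).toEquiv).symm
  · rw [AddMonoidHom.range_eq_top.mpr hg]
    exact Nat.card_congr AddSubgroup.topEquiv.toEquiv

/-- inverse of an integer prime to `p` on modules killed by `p` -/
theorem exists_inv {n : ℕ} (hn : n.Coprime p) : ∃ k : ℕ, ∀ {X : Type} [AddCommGroup X],
    (∀ x : X, p • x = 0) → ∀ x : X, (k * n) • x = x := by
  have hp : 1 < p := (Fact.out : p.Prime).one_lt
  obtain ⟨k, hk⟩ := Nat.exists_mul_mod_eq_one_of_coprime hn hp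
  refine ⟨k, fun {X} _ hX x => ?_⟩
  have h1 := Nat.div_add_mod (n * k) p
  rw [hk.2] at h1
  rw [mul_comm k n, ← h1, add_smul, one_smul, mul_comm p, mul_smul, hX, smul_zero, zero_add]

end Fp

section HomC

variable {Γ : Type} [Group Γ] (C : Subgroup Γ) (N : Type) [AddCommGroup N] [DistribMulAction Γ N]

/-- `C`-equivariant additive maps -/
def HomC (Y : Type) [AddCommGroup Y] [DistribMulAction Γ Y] : AddSubgroup (N →+ Y) where
  carrier := {φ | ∀ c ∈ C, ∀ n, φ (c • n) = c • φ n}
  add_mem' := by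
    intro a b ha hb c hc n
    rw [AddMonoidHom.add_apply, AddMonoidHom.add_apply, ha c hc, hb c hc, smul_add]
  zero_mem' := by
    intro c hc n
    rw [AddMonoidHom.zero_apply, AddMonoidHom.zero_apply, smul_zero]
  neg_mem' := by
    intro a ha c hc n
    rw [AddMonoidHom.neg_apply, AddMonoidHom.neg_apply, ha c hc, smul_neg]

variable {C N}

theorem mem_HomC {Y : Type} [AddCommGroup Y] [DistribMulAction Γ Y] {φ : N →+ Y} :
    φ ∈ HomC C N Y ↔ ∀ c ∈ C, ∀ n, φ (c • n) = c • φ n := Iff.rfl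

instance {Y : Type} [AddCommGroup Y] [DistribMulAction Γ Y] [Finite N] [Finite Y] :
    Finite (HomC C N Y) := by
  haveI : Finite (N →+ Y) := DFunLike.finite _
  infer_instance

/-- the conjugate of an additive map -/
def cj {Y : Type} [AddCommGroup Y] [DistribMulAction Γ Y] (g : Γ) (φ : N →+ Y) : N →+ Y where
  toFun n := g • φ (g⁻¹ • n)
  map_zero' := by rw [smul_zero, map_zero, smul_zero]
  map_add' a b := by rw [smul_add, map_add, smul_add]

@[simp] theorem cj_apply {Y : Type} [AddCommGroup Y] [DistribMulAction Γ Y] (g : Γ) (φ : N →+ Y)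
    (n : N) : cj g φ n = g • φ (g⁻¹ • n) := rfl

theorem mem_HomC' {Y : Type} [AddCommGroup Y] [DistribMulAction Γ Y] {φ : N →+ Y} :
    φ ∈ HomC C N Y ↔ ∀ c ∈ C, cj c φ = φ := by
  constructor
  · intro h c hc
    ext n
    rw [cj_apply, h _ (C.inv_mem hc), smul_inv_smul]
  · intro h c hc n
    have := DFunLike.congr_fun (h c hc) (c • n)
    rw [cj_apply, inv_smul_smul] at this
    exact this.symm

/-- average (without normalisation) -/
def avg (C : Subgroup Γ) [Fintype C] {Y : Type} [AddCommGroup Y] [DistribMulAction Γ Y]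
    (φ : N →+ Y) : N →+ Y := ∑ c : C, cj (c : Γ) φ

theorem avg_mem [Fintype C] {Y : Type} [AddCommGroup Y] [DistribMulAction Γ Y] (φ : N →+ Y) :
    avg C φ ∈ HomC C N Y := by
  rw [mem_HomC']
  intro c hc
  ext n
  rw [cj_apply, avg, AddMonoidHom.finsetSum_apply, AddMonoidHom.finsetSum_apply, Finset.smul_sum]
  refine Fintype.sum_equiv (Equiv.mulLeft (⟨c, hc⟩ : C)) _ _ fun d => ?_
  rw [cj_apply, cj_apply, ← mul_smul, ← mul_smul]
  simp only [Equiv.coe_mulLeft, Subgroup.coe_mul, mul_inv_rev]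

/-- composition of equivariant maps -/
def HomC.comp {Y Z : Type} [AddCommGroup Y] [DistribMulAction Γ Y] [AddCommGroup Z]
    [DistribMulAction Γ Z] (f : Y →+ Z) (hf : ∀ (g : Γ) y, f (g • y) = g • f y) :
    HomC C N Y →+ HomC C N Z where
  toFun φ := ⟨f.comp φ.1, fun c hc n => by
    change f (φ.1 (c • n)) = c • f (φ.1 n)
    rw [φ.2 c hc, hf]⟩
  map_zero' := Subtype.ext (AddMonoidHom.ext fun n => map_zero f)
  map_add' a b := Subtype.ext (AddMonoidHom.ext fun n => map_add f _ _)

theorem HomC.comp_apply {Y Z : Type} [AddCommGroup Y] [DistribMulAction Γ Y] [AddCommGroup Z]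
    [DistribMulAction Γ Z] (f : Y →+ Z) (hf : ∀ (g : Γ) y, f (g • y) = g • f y)
    (φ : HomC C N Y) (n : N) : (HomC.comp f hf φ).1 n = f (φ.1 n) := rfl

theorem HomC.comp_surjective {p : ℕ} [Fact p.Prime] [Finite C] (hC : (Nat.card C).Coprime p)
    {Y Z : Type} [AddCommGroup Y]
    [DistribMulAction Γ Y] [AddCommGroup Z] [DistribMulAction Γ Z] (f : Y →+ Z)
    (hf : ∀ (g : Γ) y, f (g • y) = g • f y) (kY : ∀ y : Y, p • y = 0)
    (hs : Function.Surjective f) : Function.Surjective (HomC.comp (C := C) (N := N) f hf) := by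
  classical
  haveI := Fintype.ofFinite C
  have kZ : ∀ z : Z, p • z = 0 := by
    intro z
    obtain ⟨y, rfl⟩ := hs z
    rw [← map_nsmul, kY, map_zero]
  obtain ⟨s, hs'⟩ := exists_section kY kZ f hs
  obtain ⟨k, hk⟩ := exists_inv hC
  intro φ
  refine ⟨k • ⟨avg C (s.comp φ.1), avg_mem _⟩, Subtype.ext (AddMonoidHom.ext fun n => ?_)⟩
  rw [HomC.comp_apply]
  change f ((k • avg C (s.comp φ.1)) n) = φ.1 n
  rw [AddMonoidHom.nsmul_apply, map_nsmul, avg, AddMonoidHom.finsetSum_apply, map_sum]
  have h1 : ∀ c : C, f (cj (c : Γ) (s.comp φ.1) n) = φ.1 n := by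
    intro c
    rw [cj_apply, hf, AddMonoidHom.comp_apply, hs', φ.2 _ (C.inv_mem c.2), smul_inv_smul]
  rw [Finset.sum_congr rfl fun c _ => h1 c, Finset.sum_const, Finset.card_univ,
    ← Nat.card_eq_fintype_card, ← mul_smul]
  exact hk kZ _

/-- **(C2)** `Y ↦ v_p |Hom_C(N, Y)|` is additive -/
def homF (p : ℕ) [Fact p.Prime] (C : Subgroup Γ) [Finite C] (hC : (Nat.card C).Coprime p)
    (N : Type) [AddCommGroup N] [DistribMulAction Γ N] [Finite N] : AddF p Γ where
  d Y _ _ := (padicValNat p (Nat.card (HomC C N Y)) : ℤ)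
  add := by
    intro A B D _ _ _ _ _ _ fB kB i j hi hj inj surj ex
    haveI := fB
    haveI : Finite A := Finite.of_injective i inj
    haveI : Finite D := Finite.of_surjective j surj
    have h := card_ker_mul_of_surj (HomC.comp (C := C) (N := N) i hi)
      (HomC.comp (C := C) (N := N) j hj) ?_ ?_ (HomC.comp_surjective hC j hj kB surj)
    · rw [h, padicValNat.mul Nat.card_pos.ne' Nat.card_pos.ne']
      push_cast
      rfl
    · intro φ ψ h
      refine Subtype.ext (AddMonoidHom.ext fun n => inj ?_)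
      exact congrArg (fun x : HomC C N B => x.1 n) h
    · intro φ
      constructor
      · intro h
        have h0 : ∀ n, j (φ.1 n) = 0 := fun n => congrArg (fun x : HomC C N D => x.1 n) h
        choose a ha using fun n => (ex (φ.1 n)).mp (h0 n)
        refine ⟨⟨⟨⟨a, inj ?_⟩, fun x y => inj ?_⟩, fun c hc n => inj ?_⟩,
          Subtype.ext (AddMonoidHom.ext ha)⟩
        · rw [ha, map_zero, map_zero]
        · rw [map_add i, ha, ha, ha, map_add]
        · change i (a (c • n)) = i (c • a n)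
          rw [ha, hi, ha, φ.2 c hc]
      · rintro ⟨ψ, rfl⟩
        refine Subtype.ext (AddMonoidHom.ext fun n => ?_)
        exact (ex _).mpr ⟨ψ.1 n, rfl⟩

theorem homF_d (p : ℕ) [Fact p.Prime] (C : Subgroup Γ) [Finite C] (hC : (Nat.card C).Coprime p)
    (N : Type) [AddCommGroup N] [DistribMulAction Γ N] [Finite N] (Y : Type) [AddCommGroup Y]
    [DistribMulAction Γ Y] :
    (homF p C hC N).d Y = (padicValNat p (Nat.card (HomC C N Y)) : ℤ) := rfl

end HomC

section Pairing

variable {p : ℕ} [Fact p.Prime] {X Y : Type*} [AddCommGroup X] [AddCommGroup Y]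

/-- invariants of a perfect pairing have the same order (order of the group prime to `p`) -/
theorem card_eq_of_avg [Finite X] [Finite Y] (kX : ∀ x : X, p • x = 0) (kY : ∀ y : Y, p • y = 0)
    (e : X →+ Y →+ ZMod p) (hl : ∀ x, (∀ y, e x y = 0) → x = 0)
    (hr : ∀ y, (∀ x, e x y = 0) → y = 0) (X' : AddSubgroup X) (Y' : AddSubgroup Y)
    (πX : X → X) (hπX : ∀ x, πX x ∈ X') (πY : Y → Y) (hπY : ∀ y, πY y ∈ Y') (u : ZMod p)
    (hu : u ≠ 0) (h1 : ∀ x ∈ X', ∀ y, e x (πY y) = u * e x y)
    (h2 : ∀ y ∈ Y', ∀ x, e (πX x) y = u * e x y) : Nat.card X' = Nat.card Y' := by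
  let e' : X' →+ Y' →+ ZMod p := (e.comp X'.subtype).compl₂ Y'.subtype
  refine (fp_isPerfPair (fun x => Subtype.ext (kX x)) (fun y => Subtype.ext (kY y)) e' ?_ ?_).2.2
  · intro x hx
    refine Subtype.ext (hl _ fun y => ?_)
    have h : e x (πY y) = 0 := hx ⟨πY y, hπY y⟩
    rw [h1 _ x.2] at h
    exact (mul_eq_zero.mp h).resolve_left hu
  · intro y hy
    refine Subtype.ext (hr _ fun x => ?_)
    have h : e (πX x) y = 0 := hy ⟨πX x, hπX x⟩
    rw [h2 _ y.2] at h
    exact (mul_eq_zero.mp h).resolve_left hu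

end Pairing

end Fermat.Agent.H29EC

#print axioms Fermat.Agent.H29EC.homF
#print axioms Fermat.Agent.H29EC.card_eq_of_avg
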