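import Fermat.Agent.H29EC.HomC
import Fermat.Agent.CFT.EC.Data

/-!
# Equivariant functions and `Hom_C(N, F_p[X])`
-/

set_option autoImplicit false
set_option maxHeartbeats 400000
set_option linter.style.haveILetI false

noncomputable section

namespace Fermat.Agent.H29EC

open Fermat.Agent.CC Fermat.Agent.CFT.EC

section MapC

variable {Γ : Type} [Group Γ] (C : Subgroup Γ) (N : Type) [AddCommGroup N] [DistribMulAction Γ N]

/-- `C`-invariants -/
def invC : AddSubgroup N where
  carrier := {n | ∀ c ∈ C, c • n = n}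
  add_mem' := by
    intro a b ha hb c hc
    rw [smul_add, ha c hc, hb c hc]
  zero_mem' := fun c _ => smul_zero c
  neg_mem' := by
    intro a ha c hc
    rw [smul_neg, ha c hc]

/-- `C`-equivariant functions -/
def MapC (X : Type) [MulAction Γ X] : AddSubgroup (X → N) where
  carrier := {f | ∀ c ∈ C, ∀ x, f (c • x) = c • f x}
  add_mem' := by
    intro a b ha hb c hc x
    rw [Pi.add_apply, Pi.add_apply, ha c hc, hb c hc, smul_add]
  zero_mem' := by
    intro c hc x
    rw [Pi.zero_apply, Pi.zero_apply, smul_zero]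
  neg_mem' := by
    intro a ha c hc x
    rw [Pi.neg_apply, Pi.neg_apply, ha c hc, smul_neg]

variable {C N} {p : ℕ} [Fact p.Prime]

theorem cast_ne_zero [Finite C] (hC : (Nat.card C).Coprime p) : ((Nat.card C : ℕ) : ZMod p) ≠ 0 := by
  intro h
  rw [ZMod.natCast_eq_zero_iff] at h
  have h1 : p ∣ 1 := by
    rw [← hC]
    exact Nat.dvd_gcd h dvd_rfl
  exact (Fact.out : p.Prime).one_lt.ne' (Nat.dvd_one.mp h1)

/-- the pairing of `Hom(N, F_p)` and `N` -/
theorem card_HomC_Tv [Finite N] [Finite C] (hC : (Nat.card C).Coprime p) (kN : ∀ n : N, p • n = 0) :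
    Nat.card (HomC C N (Tv (ZMod p))) = Nat.card (invC C N) := by
  classical
  haveI := Fintype.ofFinite C
  haveI : Finite (Tv (ZMod p)) := inferInstanceAs (Finite (ZMod p))
  haveI : Finite (N →+ Tv (ZMod p)) := DFunLike.finite _
  let e : (N →+ Tv (ZMod p)) →+ N →+ ZMod p :=
    { toFun := fun φ => { toFun := fun n => φ n, map_zero' := map_zero φ, map_add' := map_add φ }
      map_zero' := rfl
      map_add' := fun _ _ => rfl }
  refine card_eq_of_avg (fun φ => ?_) kN e ?_ ?_ _ _ (avg C) avg_mem (fun n => ∑ c : C, (c : Γ) • n)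
    ?_ ((Nat.card C : ℕ) : ZMod p) (cast_ne_zero hC) ?_ ?_
  · ext n
    rw [AddMonoidHom.nsmul_apply, ← map_nsmul, kN, map_zero]
    rfl
  · intro φ h
    ext n
    exact h n
  · intro n hn
    by_contra hne
    obtain ⟨m, -, hm⟩ := fp_sep kN ⊥ (y := n) (by simpa using hne)
    exact hm (hn m)
  · intro n c hc
    rw [Finset.smul_sum]
    refine Fintype.sum_equiv (Equiv.mulLeft (⟨c, hc⟩ : C)) _ _ fun d => ?_
    rw [← mul_smul]
    rfl
  · intro φ hφ n
    have h1 : ∀ c : C, e φ ((c : Γ) • n) = e φ n := fun c =>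
      (hφ _ c.2 n).trans (Tv.smul_eq _ _)
    rw [map_sum, Finset.sum_congr rfl fun c _ => h1 c,
      Finset.sum_const, Finset.card_univ, ← Nat.card_eq_fintype_card, nsmul_eq_mul]
  · intro n hn φ
    have h1 : e (avg C φ) n = ∑ c : C, e (cj (c : Γ) φ) n := by
      rw [avg, map_sum, AddMonoidHom.finsetSum_apply]
    have h2 : ∀ c : C, e (cj (c : Γ) φ) n = e φ n := by
      intro c
      change (c : Γ) • φ ((c : Γ)⁻¹ • n) = φ n
      rw [Tv.smul_eq, hn _ (C.inv_mem c.2)]
    rw [h1, Finset.sum_congr rfl fun c _ => h2 c,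
      Finset.sum_const, Finset.card_univ, ← Nat.card_eq_fintype_card, nsmul_eq_mul]

/-- the pairing of `Hom(N, F_p[X])` and `Map(X, N)` -/
def pmE (N X : Type) [AddCommGroup N] [Fintype X] :
    (N →+ Pm X (ZMod p)) →+ (X → N) →+ ZMod p where
  toFun φ :=
    { toFun := fun f => ∑ x, φ (f x) x
      map_zero' := by
        refine Finset.sum_eq_zero fun x _ => ?_
        rw [Pi.zero_apply, map_zero]; rfl
      map_add' := fun f f' => by
        rw [← Finset.sum_add_distrib]
        refine Finset.sum_congr rfl fun x _ => ?_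
        rw [Pi.add_apply, map_add]; rfl }
  map_zero' := by
    ext f
    exact Finset.sum_eq_zero fun x _ => rfl
  map_add' φ ψ := AddMonoidHom.ext fun f => (Finset.sum_congr rfl fun x _ =>
    (rfl : ((φ + ψ) (f x) x : ZMod p) = (φ (f x) x : ZMod p) + (ψ (f x) x : ZMod p))).trans
      Finset.sum_add_distrib

theorem pmE_apply {X : Type} [Fintype X] (φ : N →+ Pm X (ZMod p)) (f : X → N) :
    pmE N X φ f = ∑ x, φ (f x) x := rfl

theorem card_HomC_Pm [Finite N] [Finite C] (hC : (Nat.card C).Coprime p)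
    (kN : ∀ n : N, p • n = 0) (X : Type) [Finite X] [MulAction Γ X] :
    Nat.card (HomC C N (Pm X (ZMod p))) = Nat.card (MapC C N X) := by
  classical
  haveI := Fintype.ofFinite C
  haveI := Fintype.ofFinite X
  haveI : Finite (Pm X (ZMod p)) := inferInstanceAs (Finite (X → ZMod p))
  haveI : Finite (N →+ Pm X (ZMod p)) := DFunLike.finite _
  refine card_eq_of_avg (fun φ => ?_) (fun f => ?_) (pmE N X) ?_ ?_ _ _ (avg C) avg_mem
    (fun f x => ∑ c : C, (c : Γ) • f ((c : Γ)⁻¹ • x))
    ?_ ((Nat.card C : ℕ) : ZMod p) (cast_ne_zero hC) ?_ ?_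
  · ext n
    rw [AddMonoidHom.nsmul_apply, ← map_nsmul, kN, map_zero]
    rfl
  · funext x
    exact kN _
  · intro φ h
    ext n
    funext x
    have h1 := h (Pi.single x n)
    rw [pmE_apply, Finset.sum_eq_single x, Pi.single_eq_same] at h1
    · exact h1
    · intro y _ hy
      rw [Pi.single_eq_of_ne hy, map_zero]; rfl
    · intro hx; exact absurd (Finset.mem_univ x) hx
  · intro f hf
    funext x
    by_contra hne
    obtain ⟨m, -, hm⟩ := fp_sep kN ⊥ (y := f x) (by simpa using hne)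
    refine hm ?_
    let φ : N →+ Pm X (ZMod p) :=
      { toFun := fun n => (Pi.single x (m n) : X → ZMod p)
        map_zero' := by rw [map_zero]; exact Pi.single_zero _
        map_add' := fun a b => by rw [map_add]; exact Pi.single_add _ _ _ }
    have h1 := hf φ
    rw [pmE_apply, Finset.sum_eq_single x] at h1
    · have h2 : φ (f x) x = m (f x) := by
        change (Pi.single x (m (f x)) : X → ZMod p) x = m (f x)
        exact Pi.single_eq_same x _
      rw [← h2]; exact h1
    · intro y _ hy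
      exact Pi.single_eq_of_ne (M := fun _ : X => ZMod p) hy (m (f y))
    · intro hx; exact absurd (Finset.mem_univ x) hx
  · intro f c hc x
    rw [Finset.smul_sum]
    refine (Fintype.sum_equiv (Equiv.mulLeft (⟨c, hc⟩ : C)) _ _ fun d => ?_).symm
    rw [← mul_smul]
    simp only [Equiv.coe_mulLeft, Subgroup.coe_mul, mul_inv_rev]
    rw [mul_smul d.1⁻¹ c⁻¹, inv_smul_smul]
  · intro φ hφ f
    rw [pmE_apply, pmE_apply]
    have h1 : ∀ x, (φ (∑ c : C, (c : Γ) • f ((c : Γ)⁻¹ • x)) x : ZMod p) =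
        ∑ c : C, (φ (f ((c : Γ)⁻¹ • x)) ((c : Γ)⁻¹ • x) : ZMod p) := by
      intro x
      rw [map_sum]
      refine (Finset.sum_apply x _ (fun c : C => (φ ((c : Γ) • f ((c : Γ)⁻¹ • x)) : X → ZMod p))).trans ?_
      refine Finset.sum_congr rfl fun c _ => ?_
      rw [hφ _ c.2]
      rfl
    rw [Finset.sum_congr rfl fun x _ => h1 x, Finset.sum_comm]
    have h2 : ∀ c : C, (∑ x, (φ (f ((c : Γ)⁻¹ • x)) ((c : Γ)⁻¹ • x) : ZMod p)) =
        ∑ x, (φ (f x) x : ZMod p) := by
      intro c
      exact Fintype.sum_equiv (MulAction.toPerm (c : Γ)⁻¹) _ _ fun x => rfl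
    rw [Finset.sum_congr rfl fun c _ => h2 c, Finset.sum_const, Finset.card_univ,
      ← Nat.card_eq_fintype_card, nsmul_eq_mul]
  · intro f hf φ
    rw [pmE_apply, pmE_apply]
    have h1 : ∀ x, (avg C φ (f x) x : ZMod p) =
        ∑ c : C, (φ (f ((c : Γ)⁻¹ • x)) ((c : Γ)⁻¹ • x) : ZMod p) := by
      intro x
      rw [avg, AddMonoidHom.finsetSum_apply]
      refine (Finset.sum_apply x _ (fun c : C => (cj (c : Γ) φ (f x) : X → ZMod p))).trans ?_
      refine Finset.sum_congr rfl fun c _ => ?_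
      rw [cj_apply, ← hf _ (C.inv_mem c.2)]
      rfl
    rw [Finset.sum_congr rfl fun x _ => h1 x, Finset.sum_comm]
    have h2 : ∀ c : C, (∑ x, (φ (f ((c : Γ)⁻¹ • x)) ((c : Γ)⁻¹ • x) : ZMod p)) =
        ∑ x, (φ (f x) x : ZMod p) := by
      intro c
      exact Fintype.sum_equiv (MulAction.toPerm (c : Γ)⁻¹) _ _ fun x => rfl
    rw [Finset.sum_congr rfl fun c _ => h2 c, Finset.sum_const, Finset.card_univ,
      ← Nat.card_eq_fintype_card, nsmul_eq_mul]

/-- the pairing of `M` and `Hom(M', T)` -/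
theorem card_HomC_T {M T : Type} [AddCommGroup M] [AddCommGroup T] [DistribMulAction Γ M]
    [DistribMulAction Γ T] [Finite M] [Finite N] (τ : T ≃+ ZMod p) (kM : ∀ m : M, p • m = 0)
    (kN : ∀ n : N, p • n = 0) (e : M →+ N →+ T)
    (he : ∀ (g : Γ) (m : M) (n : N), e (g • m) (g • n) = g • e m n)
    (hl : ∀ m, (∀ n, e m n = 0) → m = 0) (hr : ∀ n, (∀ m, e m n = 0) → n = 0) :
    Nat.card (HomC C N T) = Nat.card (invC C M) := by
  refine (Nat.card_congr (Equiv.ofBijective (fun m : invC C M =>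
    (⟨e m.1, fun c hc n => ?_⟩ : HomC C N T)) ⟨?_, ?_⟩)).symm
  · rw [← he, m.2 c hc]
  · intro a b hab
    have h1 : e a.1 = e b.1 := congrArg Subtype.val hab
    refine Subtype.ext (sub_eq_zero.mp (hl _ fun n => ?_))
    rw [map_sub, h1, sub_self, AddMonoidHom.zero_apply]
  · intro φ
    obtain ⟨m, hm⟩ := (fpT_perfect τ kM kN e hl hr).2.1 (τ.toAddMonoidHom.comp φ.1)
    have hm' : ∀ n, e m n = φ.1 n := fun n => τ.injective (hm n)
    refine ⟨⟨m, fun c hc => sub_eq_zero.mp (hl _ fun n => ?_)⟩,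
      Subtype.ext (AddMonoidHom.ext hm')⟩
    have h1 : e (c • m) n = e m n := by
      have h2 := he c m (c⁻¹ • n)
      rw [smul_inv_smul] at h2
      rw [h2, hm', ← φ.2 c hc, smul_inv_smul, hm']
    rw [map_sub, AddMonoidHom.sub_apply, h1, sub_self]

end MapC

end Fermat.Agent.H29EC

#print axioms Fermat.Agent.H29EC.card_HomC_Tv
#print axioms Fermat.Agent.H29EC.card_HomC_Pm
#print axioms Fermat.Agent.H29EC.card_HomC_T
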